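/-
helper74: abstract Tate module, part 1 (Mathlib only).

`X` is an abelian group, `p` a prime, such that `X[p^n]` has `p^(2n)` elements for all `n` and
`X` is `p`-divisible.  Then there is a compatible system of bases `(P n, Q n)` of the groups
`X[p^n]` (`TateBasis`): `p • P (n+1) = P n`, `p • Q (n+1) = Q n`, every element of `X[p^n]` is
`a • P n + b • Q n`, and `a • P n + b • Q n = 0` forces `p^n ∣ a, b`.
-/
import Mathlib

set_option autoImplicit false

noncomputable section

namespace Fermat.Agent.H74.Tate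

universe u

variable {X : Type u} [AddCommGroup X]

/-- Congruent integers act equally on `m`-torsion elements. -/
theorem zsmul_eq_of_cast_eq {m : ℕ} {T : X} (hT : m • T = 0) {u v : ℤ}
    (h : (u : ZMod m) = (v : ZMod m)) : u • T = v • T := by
  have hd : (m : ℤ) ∣ v - u := (ZMod.intCast_eq_intCast_iff_dvd_sub u v m).mp h
  obtain ⟨k, hk⟩ := hd
  have hv : v = u + k * (m : ℤ) := by linarith
  rw [hv, add_smul, mul_smul, natCast_zsmul, hT, smul_zero, add_zero]

/-- Integers divisible by `m` kill `m`-torsion elements. -/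
theorem zsmul_eq_zero_of_dvd {m : ℕ} {T : X} (hT : m • T = 0) {u : ℤ} (h : (m : ℤ) ∣ u) :
    u • T = 0 := by
  obtain ⟨k, rfl⟩ := h
  rw [mul_comm, mul_smul, natCast_zsmul, hT, smul_zero]

/-- A compatible system of bases of the groups `X[p^n]`. -/
structure TateBasis (X : Type u) [AddCommGroup X] (p : ℕ) : Type u where
  /-- first basis vector -/
  P : ℕ → X
  /-- second basis vector -/
  Q : ℕ → X
  P_zero : P 0 = 0
  Q_zero : Q 0 = 0
  P_succ : ∀ n, p • P (n + 1) = P n
  Q_succ : ∀ n, p • Q (n + 1) = Q n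
  indep : ∀ (n : ℕ) (a b : ℤ), a • P n + b • Q n = 0 → ((p : ℤ) ^ n ∣ a) ∧ ((p : ℤ) ^ n ∣ b)
  span : ∀ (n : ℕ) (T : X), p ^ n • T = 0 → ∃ a b : ℤ, T = a • P n + b • Q n

namespace TateBasis

variable {p : ℕ} (B : TateBasis X p)

theorem pow_smul_P (n : ℕ) : p ^ n • B.P n = 0 := by
  induction n with
  | zero => rw [pow_zero, one_smul, B.P_zero]
  | succ n ih => rw [pow_succ, mul_smul, B.P_succ, ih]

theorem pow_smul_Q (n : ℕ) : p ^ n • B.Q n = 0 := by
  induction n with
  | zero => rw [pow_zero, one_smul, B.Q_zero]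
  | succ n ih => rw [pow_succ, mul_smul, B.Q_succ, ih]

end TateBasis

section construction

variable (p : ℕ) (hdiv : ∀ Q : X, ∃ P : X, p • P = Q)

/-- A sequence of successive `p`-th parts of `P₁`. -/
def liftSeq (P₁ : X) : ℕ → X
  | 0 => 0
  | 1 => P₁
  | (n + 2) => Classical.choose (hdiv (liftSeq P₁ (n + 1)))

theorem liftSeq_zero (P₁ : X) : liftSeq p hdiv P₁ 0 = 0 := rfl

theorem liftSeq_one (P₁ : X) : liftSeq p hdiv P₁ 1 = P₁ := rfl

theorem liftSeq_succ {P₁ : X} (hP₁ : p • P₁ = 0) (n : ℕ) :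
    p • liftSeq p hdiv P₁ (n + 1) = liftSeq p hdiv P₁ n := by
  cases n with
  | zero => exact hP₁
  | succ n => exact Classical.choose_spec (hdiv (liftSeq p hdiv P₁ (n + 1)))

theorem pow_smul_liftSeq {P₁ : X} (hP₁ : p • P₁ = 0) (n : ℕ) :
    p ^ n • liftSeq p hdiv P₁ (n + 1) = P₁ := by
  induction n with
  | zero => rw [pow_zero, one_smul, liftSeq_one]
  | succ n ih => rw [pow_succ, mul_smul, liftSeq_succ p hdiv hP₁, ih]

end construction

section basisOne

variable {p : ℕ} (hp : p.Prime)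

include hp

/-- If `p ∤ b` then `T` is a multiple of `b • T` modulo `p`-torsion. -/
theorem exists_zsmul_zsmul_eq {T : X} (hT : p • T = 0) {b : ℤ} (hb : ¬ (p : ℤ) ∣ b) :
    ∃ c : ℤ, c • (b • T) = T := by
  have hcop : IsCoprime b (p : ℤ) := by
    have hpp : Prime (p : ℤ) := Nat.prime_iff_prime_int.mp hp
    exact (IsCoprime.symm ((Prime.coprime_iff_not_dvd hpp).mpr hb))
  obtain ⟨c, d, hcd⟩ := hcop
  refine ⟨c, ?_⟩
  have h1 : (c * b + d * (p : ℤ)) • T = T := by rw [hcd, one_smul]
  rw [add_smul, mul_smul, mul_smul, natCast_zsmul, hT, smul_zero, add_zero] at h1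
  exact h1

/-- A basis of the `p`-torsion. -/
theorem exists_basis_one (hcard : {T : X | p • T = 0}.ncard = p ^ 2) :
    ∃ P Q : X, p • P = 0 ∧ p • Q = 0 ∧
      ∀ a b : ℤ, a • P + b • Q = 0 → ((p : ℤ) ∣ a) ∧ ((p : ℤ) ∣ b) := by
  have hp2 : 2 ≤ p := hp.two_le
  have hlt : 1 < {T : X | p • T = 0}.ncard := by
    rw [hcard]; nlinarith
  obtain ⟨P, hPmem, hP0⟩ := Set.exists_ne_of_one_lt_ncard hlt (0 : X)
  have hP : p • P = 0 := hPmem
  -- the multiples of `P`
  set C : Set X := (fun a : ℕ => a • P) '' (Finset.range p : Set ℕ) with hC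
  have hCfin : C.Finite := (Finset.finite_toSet _).image _
  have hCcard : C.ncard < {T : X | p • T = 0}.ncard := by
    have h1 : C.ncard ≤ (Finset.range p : Set ℕ).ncard :=
      Set.ncard_image_le (Finset.finite_toSet _)
    rw [Set.ncard_coe_finset, Finset.card_range] at h1
    rw [hcard]
    nlinarith
  obtain ⟨Q, hQmem, hQC⟩ := Set.exists_mem_notMem_of_ncard_lt_ncard hCcard hCfin
  have hQ : p • Q = 0 := hQmem
  have hmulC : ∀ a : ℤ, a • P ∈ C := by
    intro a
    refine ⟨(a % (p : ℤ)).toNat, ?_, ?_⟩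
    · have h0 : 0 ≤ a % (p : ℤ) := Int.emod_nonneg _ (by exact_mod_cast hp.ne_zero)
      have h1 : a % (p : ℤ) < p := Int.emod_lt_of_pos _ (by exact_mod_cast hp.pos)
      simp only [Finset.coe_range, Set.mem_Iio]
      omega
    · have h0 : 0 ≤ a % (p : ℤ) := Int.emod_nonneg _ (by exact_mod_cast hp.ne_zero)
      change ((a % (p : ℤ)).toNat : ℕ) • P = a • P
      rw [← natCast_zsmul, Int.toNat_of_nonneg h0]
      apply zsmul_eq_of_cast_eq hP
      rw [ZMod.intCast_eq_intCast_iff_dvd_sub]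
      exact ⟨a / p, by rw [Int.emod_def]; ring⟩
  refine ⟨P, Q, hP, hQ, ?_⟩
  intro a b hab
  have hb : (p : ℤ) ∣ b := by
    by_contra hb
    obtain ⟨c, hc⟩ := exists_zsmul_zsmul_eq hp hQ hb
    apply hQC
    have h1 : b • Q = (-a) • P := by
      rw [neg_smul]
      exact eq_neg_of_add_eq_zero_right hab
    rw [h1, ← mul_smul] at hc
    rw [← hc]
    exact hmulC _
  have ha : (p : ℤ) ∣ a := by
    by_contra ha
    have h1 : a • P = 0 := by
      rw [zsmul_eq_zero_of_dvd hQ hb, add_zero] at hab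
      exact hab
    obtain ⟨c, hc⟩ := exists_zsmul_zsmul_eq hp hP ha
    rw [h1, smul_zero] at hc
    exact hP0 hc.symm
  exact ⟨ha, hb⟩

end basisOne

section existence

variable {p : ℕ} (hp : p.Prime)

include hp

/-- **Existence of a compatible system of bases.** -/
theorem exists_tateBasis (hcard : ∀ n : ℕ, {T : X | p ^ n • T = 0}.ncard = p ^ (2 * n))
    (hdiv : ∀ Q : X, ∃ P : X, p • P = Q) : Nonempty (TateBasis X p) := by
  have hcard1 : {T : X | p • T = 0}.ncard = p ^ 2 := by
    have := hcard 1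
    simpa using this
  obtain ⟨P₁, Q₁, hP₁, hQ₁, hind⟩ := exists_basis_one hp hcard1
  set P := liftSeq p hdiv P₁ with hPdef
  set Q := liftSeq p hdiv Q₁ with hQdef
  have hPs : ∀ n, p • P (n + 1) = P n := liftSeq_succ p hdiv hP₁
  have hQs : ∀ n, p • Q (n + 1) = Q n := liftSeq_succ p hdiv hQ₁
  have hPpow : ∀ n, p ^ n • P n = 0 := by
    intro n
    induction n with
    | zero => rw [pow_zero, one_smul]; rfl
    | succ n ih => rw [pow_succ, mul_smul, hPs, ih]
  have hQpow : ∀ n, p ^ n • Q n = 0 := by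
    intro n
    induction n with
    | zero => rw [pow_zero, one_smul]; rfl
    | succ n ih => rw [pow_succ, mul_smul, hQs, ih]
  have hindep : ∀ (n : ℕ) (a b : ℤ), a • P n + b • Q n = 0 →
      ((p : ℤ) ^ n ∣ a) ∧ ((p : ℤ) ^ n ∣ b) := by
    intro n
    induction n with
    | zero =>
      intro a b _
      simp
    | succ n ih =>
      intro a b hab
      -- multiply by `p ^ n`
      have h1 : a • P₁ + b • Q₁ = 0 := by
        have h2 : p ^ n • (a • P (n + 1) + b • Q (n + 1)) = 0 := by rw [hab, smul_zero]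
        rw [smul_add, smul_comm (p ^ n) a, smul_comm (p ^ n) b,
          pow_smul_liftSeq p hdiv hP₁, pow_smul_liftSeq p hdiv hQ₁] at h2
        exact h2
      obtain ⟨⟨a', rfl⟩, ⟨b', rfl⟩⟩ := hind a b h1
      have h3 : a' • P n + b' • Q n = 0 := by
        have e1 : ((p : ℤ) * a') • P (n + 1) = a' • P n := by
          rw [mul_comm, mul_smul, natCast_zsmul, hPs]
        have e2 : ((p : ℤ) * b') • Q (n + 1) = b' • Q n := by
          rw [mul_comm, mul_smul, natCast_zsmul, hQs]
        rw [e1, e2] at hab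
        exact hab
      obtain ⟨ha, hb⟩ := ih a' b' h3
      rw [pow_succ']
      exact ⟨mul_dvd_mul_left _ ha, mul_dvd_mul_left _ hb⟩
  have hspan : ∀ (n : ℕ) (T : X), p ^ n • T = 0 → ∃ a b : ℤ, T = a • P n + b • Q n := by
    intro n T hT
    have hpos : 0 < p ^ n := pos_of_ne_zero (pow_ne_zero n hp.ne_zero)
    set g : Fin (p ^ n) × Fin (p ^ n) → X := fun ij =>
      ((ij.1 : ℕ) : ℤ) • P n + ((ij.2 : ℕ) : ℤ) • Q n with hg
    have hginj : Function.Injective g := by
      rintro ⟨i, j⟩ ⟨i', j'⟩ hij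
      simp only [hg] at hij
      have h0 : (((i : ℕ) : ℤ) - ((i' : ℕ) : ℤ)) • P n +
          (((j : ℕ) : ℤ) - ((j' : ℕ) : ℤ)) • Q n = 0 := by
        rw [sub_smul, sub_smul]
        have := sub_eq_zero.mpr hij
        rw [← this]
        abel
      obtain ⟨h1, h2⟩ := hindep n _ _ h0
      have hi : (i : ℕ) = (i' : ℕ) := by
        have hi1 := i.isLt
        have hi2 := i'.isLt
        have h3 := Int.eq_zero_of_abs_lt_dvd (m := (p : ℤ) ^ n) h1 (by
          rw [abs_lt]
          constructor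
          · have : ((p : ℤ) ^ n) = ((p ^ n : ℕ) : ℤ) := by push_cast; ring
            rw [this]; omega
          · have : ((p : ℤ) ^ n) = ((p ^ n : ℕ) : ℤ) := by push_cast; ring
            rw [this]; omega)
        omega
      have hj : (j : ℕ) = (j' : ℕ) := by
        have hi1 := j.isLt
        have hi2 := j'.isLt
        have h3 := Int.eq_zero_of_abs_lt_dvd (m := (p : ℤ) ^ n) h2 (by
          rw [abs_lt]
          constructor
          · have : ((p : ℤ) ^ n) = ((p ^ n : ℕ) : ℤ) := by push_cast; ring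
            rw [this]; omega
          · have : ((p : ℤ) ^ n) = ((p ^ n : ℕ) : ℤ) := by push_cast; ring
            rw [this]; omega)
        omega
      exact Prod.ext (Fin.ext hi) (Fin.ext hj)
    have hsub : Set.range g ⊆ {T : X | p ^ n • T = 0} := by
      rintro _ ⟨⟨i, j⟩, rfl⟩
      change p ^ n • (((i : ℕ) : ℤ) • P n + ((j : ℕ) : ℤ) • Q n) = 0
      rw [smul_add, smul_comm, smul_comm (p ^ n) ((j : ℕ) : ℤ), hPpow, hQpow, smul_zero,
        smul_zero, add_zero]
    have hfin : {T : X | p ^ n • T = 0}.Finite := by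
      apply Set.finite_of_ncard_pos
      rw [hcard n]
      exact pos_of_ne_zero (pow_ne_zero _ hp.ne_zero)
    have hrange : (Set.range g).ncard = p ^ (2 * n) := by
      rw [← Set.image_univ, Set.ncard_image_of_injective _ hginj, Set.ncard_univ,
        Nat.card_eq_fintype_card, Fintype.card_prod, Fintype.card_fin]
      ring
    have heq : Set.range g = {T : X | p ^ n • T = 0} :=
      Set.eq_of_subset_of_ncard_le hsub (by rw [hrange, hcard n]) hfin
    have hTmem : T ∈ Set.range g := by rw [heq]; exact hT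
    obtain ⟨⟨i, j⟩, hij⟩ := hTmem
    exact ⟨((i : ℕ) : ℤ), ((j : ℕ) : ℤ), hij.symm⟩
  exact ⟨{ P := P, Q := Q, P_zero := rfl, Q_zero := rfl, P_succ := hPs, Q_succ := hQs,
           indep := hindep, span := hspan }⟩

end existence

end Fermat.Agent.H74.Tate

end
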