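/-
helper74: abstract Tate module, part 2 (Mathlib only).

For a `TateBasis` of `X` the evaluation maps `ev B n : (Fin 2 → ℤ_[p]) → X[p^n]`,
`v ↦ v₀ P_n + v₁ Q_n`, are additive, surjective onto `X[p^n]`, compatible, with kernel
`p^n ℤ_p²`; every compatible sequence `(T_n)`, `p T_(n+1) = T_n`, is `(ev B n v)` for a
unique `v`.  Hence every additive endomorphism `f` of `X` induces a `ℤ_p`-linear endomorphism
`tateEnd B f` of `ℤ_p²` with `ev B n (tateEnd B f v) = f (ev B n v)`.
-/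
import Fermat.Agent.H74.Tate.Basis

set_option autoImplicit false

noncomputable section

namespace Fermat.Agent.H74.Tate

universe u

variable {X : Type u} [AddCommGroup X] {p : ℕ} [hp : Fact p.Prime]

/-- The action of a `p`-adic integer on `p^n`-torsion elements. -/
def tsmul (n : ℕ) (x : ℤ_[p]) (T : X) : X := ((PadicInt.toZModPow n x).val : ℤ) • T

theorem neZero_pow (n : ℕ) : NeZero (p ^ n) := ⟨pow_ne_zero n hp.out.ne_zero⟩

theorem cast_val_toZModPow (n : ℕ) (x : ℤ_[p]) :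
    ((((PadicInt.toZModPow n x).val : ℕ) : ℤ) : ZMod (p ^ n)) = PadicInt.toZModPow n x := by
  have := neZero_pow (p := p) n
  rw [Int.cast_natCast, ZMod.natCast_zmod_val]

theorem tsmul_eq {n : ℕ} {T : X} (hT : p ^ n • T = 0) {x : ℤ_[p]} {a : ℤ}
    (h : (a : ZMod (p ^ n)) = PadicInt.toZModPow n x) : tsmul n x T = a • T := by
  apply zsmul_eq_of_cast_eq hT
  rw [cast_val_toZModPow, h]

theorem tsmul_intCast {n : ℕ} {T : X} (hT : p ^ n • T = 0) (a : ℤ) :
    tsmul n (a : ℤ_[p]) T = a • T :=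
  tsmul_eq hT (by rw [map_intCast])

theorem tsmul_add_left {n : ℕ} {T : X} (hT : p ^ n • T = 0) (x y : ℤ_[p]) :
    tsmul n (x + y) T = tsmul n x T + tsmul n y T := by
  have h1 : tsmul n x T + tsmul n y T = ((((PadicInt.toZModPow n x).val : ℕ) : ℤ) +
      (((PadicInt.toZModPow n y).val : ℕ) : ℤ)) • T := by
    rw [add_smul]; rfl
  rw [h1]
  apply tsmul_eq hT
  rw [map_add, Int.cast_add, cast_val_toZModPow, cast_val_toZModPow]

theorem tsmul_mul {n : ℕ} {T : X} (hT : p ^ n • T = 0) (x y : ℤ_[p]) :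
    tsmul n (x * y) T = tsmul n x (tsmul n y T) := by
  have h1 : tsmul n x (tsmul n y T) = ((((PadicInt.toZModPow n x).val : ℕ) : ℤ) *
      (((PadicInt.toZModPow n y).val : ℕ) : ℤ)) • T := by
    rw [mul_smul]; rfl
  rw [h1]
  apply tsmul_eq hT
  rw [map_mul, Int.cast_mul, cast_val_toZModPow, cast_val_toZModPow]

theorem tsmul_add_right (n : ℕ) (x : ℤ_[p]) (T T' : X) :
    tsmul n x (T + T') = tsmul n x T + tsmul n x T' := smul_add _ _ _

theorem tsmul_zero_right (n : ℕ) (x : ℤ_[p]) : tsmul n x (0 : X) = 0 := smul_zero _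

theorem map_tsmul (f : X →+ X) (n : ℕ) (x : ℤ_[p]) (T : X) :
    f (tsmul n x T) = tsmul n x (f T) := map_zsmul f _ _

theorem pow_smul_tsmul {n : ℕ} {T : X} (hT : p ^ n • T = 0) (x : ℤ_[p]) :
    p ^ n • tsmul n x T = 0 := by
  rw [tsmul, smul_comm, hT, smul_zero]

theorem tsmul_eq_zero_of_toZModPow {n : ℕ} {T : X} (hT : p ^ n • T = 0) {x : ℤ_[p]}
    (hx : PadicInt.toZModPow n x = 0) : tsmul n x T = 0 := by
  rw [tsmul_eq hT (a := 0) (by rw [hx, Int.cast_zero]), zero_smul]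

/-- Compatibility of `tsmul` with the levels. -/
theorem smul_tsmul_succ {n : ℕ} {T : X} (hT : p ^ (n + 1) • T = 0) (x : ℤ_[p]) :
    p • tsmul (n + 1) x T = tsmul n x (p • T) := by
  have hT' : p ^ n • (p • T) = 0 := by rw [← mul_smul, ← pow_succ]; exact hT
  rw [tsmul, smul_comm]
  symm
  apply tsmul_eq hT'
  have := neZero_pow (p := p) (n + 1)
  rw [Int.cast_natCast, ZMod.natCast_val, PadicInt.cast_toZModPow n (n + 1) (Nat.le_succ n)]

variable (B : TateBasis X p)

/-- The evaluation map `ℤ_p² → X[p^n]`. -/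
def ev (n : ℕ) (v : Fin 2 → ℤ_[p]) : X := tsmul n (v 0) (B.P n) + tsmul n (v 1) (B.Q n)

theorem ev_add (n : ℕ) (v w : Fin 2 → ℤ_[p]) : ev B n (v + w) = ev B n v + ev B n w := by
  simp only [ev, Pi.add_apply]
  rw [tsmul_add_left (B.pow_smul_P n), tsmul_add_left (B.pow_smul_Q n)]
  abel

theorem pow_smul_ev (n : ℕ) (v : Fin 2 → ℤ_[p]) : p ^ n • ev B n v = 0 := by
  rw [ev, smul_add, pow_smul_tsmul (B.pow_smul_P n), pow_smul_tsmul (B.pow_smul_Q n), add_zero]

theorem ev_smul (n : ℕ) (x : ℤ_[p]) (v : Fin 2 → ℤ_[p]) :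
    ev B n (x • v) = tsmul n x (ev B n v) := by
  simp only [ev, Pi.smul_apply, smul_eq_mul]
  rw [tsmul_mul (B.pow_smul_P n), tsmul_mul (B.pow_smul_Q n), tsmul_add_right]

theorem ev_zero (n : ℕ) : ev B n 0 = 0 := by
  have := ev_add B n 0 0
  rw [add_zero] at this
  exact left_eq_add.mp this

theorem ev_neg (n : ℕ) (v : Fin 2 → ℤ_[p]) : ev B n (-v) = -ev B n v := by
  have := ev_add B n v (-v)
  rw [add_neg_cancel, ev_zero] at this
  exact eq_neg_of_add_eq_zero_right this.symm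

theorem ev_sub (n : ℕ) (v w : Fin 2 → ℤ_[p]) : ev B n (v - w) = ev B n v - ev B n w := by
  rw [sub_eq_add_neg, ev_add, ev_neg, sub_eq_add_neg]

theorem smul_ev_succ (n : ℕ) (v : Fin 2 → ℤ_[p]) : p • ev B (n + 1) v = ev B n v := by
  rw [ev, smul_add, smul_tsmul_succ (B.pow_smul_P (n + 1)), smul_tsmul_succ (B.pow_smul_Q (n + 1)),
    B.P_succ, B.Q_succ, ev]

/-- Surjectivity onto the `p^n`-torsion. -/
theorem exists_ev_eq_of_torsion {n : ℕ} {T : X} (hT : p ^ n • T = 0) :
    ∃ v : Fin 2 → ℤ_[p], ev B n v = T := by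
  obtain ⟨a, b, rfl⟩ := B.span n T hT
  refine ⟨![(a : ℤ_[p]), (b : ℤ_[p])], ?_⟩
  simp only [ev, Matrix.cons_val_zero, Matrix.cons_val_one]
  rw [tsmul_intCast (B.pow_smul_P n), tsmul_intCast (B.pow_smul_Q n)]

/-- The kernel of `ev B n`. -/
theorem ev_eq_zero_iff (n : ℕ) (v : Fin 2 → ℤ_[p]) :
    ev B n v = 0 ↔ ∀ i, PadicInt.toZModPow n (v i) = 0 := by
  constructor
  · intro h
    obtain ⟨h0, h1⟩ := B.indep n _ _ h
    have key : ∀ z : ZMod (p ^ n), ((p : ℤ) ^ n ∣ ((z.val : ℕ) : ℤ)) → z = 0 := by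
      intro z hz
      have := neZero_pow (p := p) n
      have h3 : ((((z.val : ℕ) : ℤ)) : ZMod (p ^ n)) = 0 := by
        rw [ZMod.intCast_zmod_eq_zero_iff_dvd]
        push_cast
        exact hz
      rwa [Int.cast_natCast, ZMod.natCast_zmod_val] at h3
    intro i
    fin_cases i
    · exact key _ h0
    · exact key _ h1
  · intro h
    rw [ev, tsmul_eq_zero_of_toZModPow (B.pow_smul_P n) (h 0),
      tsmul_eq_zero_of_toZModPow (B.pow_smul_Q n) (h 1), add_zero]

/-- `ev` separates vectors. -/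
theorem eq_of_forall_ev_eq {v w : Fin 2 → ℤ_[p]} (h : ∀ n, ev B n v = ev B n w) : v = w := by
  funext i
  rw [← PadicInt.ext_of_toZModPow]
  intro n
  have h1 : ev B n (v - w) = 0 := by rw [ev_sub, h n, sub_self]
  have h2 := (ev_eq_zero_iff B n (v - w)).mp h1 i
  rw [Pi.sub_apply, map_sub, sub_eq_zero] at h2
  exact h2

/-- A sequence of integers which is Cauchy for the `p`-adic topology has a limit. -/
theorem exists_padic_limit (a : ℕ → ℤ) (h : ∀ n, (p : ℤ) ^ n ∣ a (n + 1) - a n) :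
    ∃ x : ℤ_[p], ∀ n, PadicInt.toZModPow n x = (a n : ZMod (p ^ n)) := by
  have hmn : ∀ m k : ℕ, (p : ℤ) ^ m ∣ a (m + k) - a m := by
    intro m k
    induction k with
    | zero => simp
    | succ k ih =>
      have h1 : (p : ℤ) ^ m ∣ a (m + k + 1) - a (m + k) :=
        (pow_dvd_pow (p : ℤ) (Nat.le_add_right m k)).trans (h (m + k))
      have : a (m + (k + 1)) - a m = (a (m + k + 1) - a (m + k)) + (a (m + k) - a m) := by
        rw [← add_assoc]; ring
      rw [this]
      exact dvd_add h1 ih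
  have hprec := (inferInstance : IsAdicComplete (IsLocalRing.maximalIdeal ℤ_[p]) ℤ_[p]).toIsPrecomplete
  obtain ⟨L, hL⟩ := hprec.prec (f := fun n => (a n : ℤ_[p])) (by
    intro m n hmn'
    rw [SModEq.sub_mem]
    obtain ⟨k, rfl⟩ := Nat.exists_eq_add_of_le hmn'
    obtain ⟨c, hc⟩ := hmn m k
    rw [smul_eq_mul, Ideal.mul_top, PadicInt.maximalIdeal_eq_span_p, Ideal.span_singleton_pow,
      Ideal.mem_span_singleton]
    refine ⟨-(c : ℤ_[p]), ?_⟩
    have : ((a (m + k) : ℤ_[p])) - (a m : ℤ_[p]) = ((p : ℤ_[p])) ^ m * (c : ℤ_[p]) := by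
      have := congrArg (Int.cast : ℤ → ℤ_[p]) hc
      push_cast at this
      exact this
    linear_combination -this)
  refine ⟨L, fun n => ?_⟩
  have h1 := hL n
  rw [SModEq.sub_mem, smul_eq_mul, Ideal.mul_top, PadicInt.maximalIdeal_eq_span_p,
    Ideal.span_singleton_pow, ← PadicInt.ker_toZModPow, RingHom.mem_ker, map_sub, sub_eq_zero,
    map_intCast] at h1
  exact h1.symm

/-- Every compatible sequence of torsion points comes from a unique vector. -/
theorem exists_ev_eq (T : ℕ → X) (hT0 : T 0 = 0) (hTs : ∀ n, p • T (n + 1) = T n) :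
    ∃ v : Fin 2 → ℤ_[p], ∀ n, ev B n v = T n := by
  have hTpow : ∀ n, p ^ n • T n = 0 := by
    intro n
    induction n with
    | zero => rw [pow_zero, one_smul, hT0]
    | succ n ih => rw [pow_succ, mul_smul, hTs, ih]
  choose a b hab using fun n => B.span n (T n) (hTpow n)
  have hcompat : ∀ n, ((p : ℤ) ^ n ∣ a (n + 1) - a n) ∧ ((p : ℤ) ^ n ∣ b (n + 1) - b n) := by
    intro n
    apply B.indep n
    have h1 := hTs n
    rw [hab (n + 1), hab n, smul_add, smul_comm, smul_comm p (b (n + 1)), B.P_succ,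
      B.Q_succ] at h1
    rw [sub_smul, sub_smul]
    have := sub_eq_zero.mpr h1
    rw [← this]
    abel
  obtain ⟨x, hx⟩ := exists_padic_limit (p := p) a (fun n => (hcompat n).1)
  obtain ⟨y, hy⟩ := exists_padic_limit (p := p) b (fun n => (hcompat n).2)
  refine ⟨![x, y], fun n => ?_⟩
  simp only [ev, Matrix.cons_val_zero, Matrix.cons_val_one]
  rw [tsmul_eq (B.pow_smul_P n) (hx n).symm, tsmul_eq (B.pow_smul_Q n) (hy n).symm, ← hab n]

/-- `ev` commutes with additive endomorphisms on sequences. -/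
theorem exists_tate_image (f : X →+ X) (v : Fin 2 → ℤ_[p]) :
    ∃ w : Fin 2 → ℤ_[p], ∀ n, ev B n w = f (ev B n v) := by
  apply exists_ev_eq B (fun n => f (ev B n v))
  · have := pow_smul_ev B 0 v
    rw [pow_zero, one_smul] at this
    rw [this, map_zero]
  · intro n
    rw [← map_nsmul, smul_ev_succ]

/-- The endomorphism of `ℤ_p²` induced by an additive endomorphism of `X`. -/
def tateFun (f : X →+ X) (v : Fin 2 → ℤ_[p]) : Fin 2 → ℤ_[p] :=
  Classical.choose (exists_tate_image B f v)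

theorem ev_tateFun (f : X →+ X) (v : Fin 2 → ℤ_[p]) (n : ℕ) :
    ev B n (tateFun B f v) = f (ev B n v) :=
  Classical.choose_spec (exists_tate_image B f v) n

/-- The `ℤ_p`-linear endomorphism of `ℤ_p²` induced by an additive endomorphism of `X`. -/
def tateEnd (f : X →+ X) : Module.End ℤ_[p] (Fin 2 → ℤ_[p]) where
  toFun := tateFun B f
  map_add' v w := by
    apply eq_of_forall_ev_eq B
    intro n
    rw [ev_tateFun, ev_add, ev_add, ev_tateFun, ev_tateFun, map_add]
  map_smul' x v := by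
    apply eq_of_forall_ev_eq B
    intro n
    rw [ev_tateFun, RingHom.id_apply, ev_smul, ev_smul, ev_tateFun, map_tsmul]

theorem ev_tateEnd (f : X →+ X) (v : Fin 2 → ℤ_[p]) (n : ℕ) :
    ev B n (tateEnd B f v) = f (ev B n v) := ev_tateFun B f v n

theorem tateEnd_id : tateEnd B (AddMonoidHom.id X) = 1 := by
  apply LinearMap.ext
  intro v
  apply eq_of_forall_ev_eq B
  intro n
  rw [ev_tateEnd]
  rfl

theorem tateEnd_comp (f g : X →+ X) : tateEnd B (f.comp g) = tateEnd B f * tateEnd B g := by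
  apply LinearMap.ext
  intro v
  apply eq_of_forall_ev_eq B
  intro n
  rw [ev_tateEnd, Module.End.mul_apply, ev_tateEnd, ev_tateEnd]
  rfl

/-- If `f` fixes the `p^n`-torsion then `tateEnd B f v - v ∈ p^n ℤ_p²`. -/
theorem tateEnd_sub_mem (f : X →+ X) (n : ℕ) (hf : ∀ T : X, p ^ n • T = 0 → f T = T)
    (v : Fin 2 → ℤ_[p]) (i : Fin 2) :
    PadicInt.toZModPow n ((tateEnd B f v - v) i) = 0 := by
  apply (ev_eq_zero_iff B n _).mp
  rw [ev_sub, ev_tateEnd, hf _ (pow_smul_ev B n v), sub_self]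

/-- Polynomial relations (here: any additive relation) transfer: if `g` kills all torsion
points of `p`-power order then `tateEnd B g = 0`. -/
theorem tateEnd_eq_zero (g : X →+ X) (hg : ∀ (n : ℕ) (T : X), p ^ n • T = 0 → g T = 0) :
    tateEnd B g = 0 := by
  apply LinearMap.ext
  intro v
  apply eq_of_forall_ev_eq B
  intro n
  rw [ev_tateEnd, hg n _ (pow_smul_ev B n v), LinearMap.zero_apply, ev_zero]

theorem tateEnd_add (f g : X →+ X) : tateEnd B (f + g) = tateEnd B f + tateEnd B g := by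
  apply LinearMap.ext
  intro v
  apply eq_of_forall_ev_eq B
  intro n
  rw [ev_tateEnd, LinearMap.add_apply, ev_add, ev_tateEnd, ev_tateEnd]
  rfl

theorem tateEnd_zsmul (a : ℤ) (f : X →+ X) :
    tateEnd B (a • f) = (a : ℤ_[p]) • tateEnd B f := by
  apply LinearMap.ext
  intro v
  apply eq_of_forall_ev_eq B
  intro n
  rw [ev_tateEnd, LinearMap.smul_apply, ev_smul, ev_tateEnd,
    tsmul_intCast (by rw [← map_nsmul, pow_smul_ev, map_zero])]
  rfl

end Fermat.Agent.H74.Tate

end
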