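/-
helper74: the `p`-adic Tate module of an elliptic curve over `ℚ` as a `GaloisRepAdic ℤ_[p]`.

`tateRep E hΔ p : GaloisRepAdic ℤ_[p]` has `V = Fin 2 → ℤ_[p]`; the finite-level maps
`tateEv E hΔ p n : (Fin 2 → ℤ_[p]) → (E⁄ℚ̄).Point` are additive, Galois-equivariant
(`tateEv_tateHom`), surjective onto `E[p^n]` (`exists_tateEv_eq`), compatible
(`smul_tateEv_succ`) and have kernel `p^n V` (`tateEv_eq_zero_iff`).
-/
import Fermat.Agent.H74.Tate.Ev
import Fermat.Agent.H74.DivGen.Count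
import Fermat.Prelude.Def_GaloisRep_Adic
import Fermat.Prelude.Def_FLTPrelim_GaloisRep

set_option autoImplicit false

noncomputable section

open WeierstrassCurve WeierstrassCurve.Affine WeierstrassCurve.Affine.Point

namespace Fermat.Agent.H74.Tate

local notation "Qb" => AlgebraicClosure ℚ

local notation "GQ" => (AlgebraicClosure ℚ ≃ₐ[ℚ] AlgebraicClosure ℚ)

variable (E : WeierstrassCurve ℚ)

theorem baseChange_Δ_ne_zero' (hΔ : E.Δ ≠ 0) : (E⁄Qb).Δ ≠ 0 := by
  change (E.map (algebraMap ℚ (AlgebraicClosure ℚ))).Δ ≠ 0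
  rw [WeierstrassCurve.map_Δ]
  exact (map_ne_zero_iff _ (algebraMap ℚ (AlgebraicClosure ℚ)).injective).mpr hΔ

theorem ncard_pow_torsion (hΔ : E.Δ ≠ 0) (p : ℕ) [hp : Fact p.Prime] (n : ℕ) :
    {T : (E⁄Qb).Point | p ^ n • T = 0}.ncard = p ^ (2 * n) := by
  have h := Fermat.Agent.H74.DivGen.ncard_nsmul_eq_zero (W := (E⁄Qb)) two_ne_zero
    (baseChange_Δ_ne_zero' E hΔ) (n := p ^ n) (Nat.one_le_pow _ _ hp.out.pos)
    (by exact_mod_cast pow_ne_zero n hp.out.ne_zero)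
  rw [h]
  ring

theorem exists_p_smul_eq (hΔ : E.Δ ≠ 0) (p : ℕ) [hp : Fact p.Prime] (Q : (E⁄Qb).Point) :
    ∃ P : (E⁄Qb).Point, p • P = Q :=
  Fermat.Agent.H74.DivGen.exists_nsmul_eq (W := (E⁄Qb)) two_ne_zero
    (baseChange_Δ_ne_zero' E hΔ) hp.out.one_le Q

/-- A compatible system of bases of the groups `E[p^n](ℚ̄)`. -/
def tateBasis (hΔ : E.Δ ≠ 0) (p : ℕ) [hp : Fact p.Prime] : TateBasis (E⁄Qb).Point p :=
  Classical.choice (exists_tateBasis hp.out (ncard_pow_torsion E hΔ p) (exists_p_smul_eq E hΔ p))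

/-- The Galois action as an additive endomorphism. -/
def galHom (σ : GQ) : (E⁄Qb).Point →+ (E⁄Qb).Point :=
  DistribSMul.toAddMonoidHom (E⁄Qb).Point σ

theorem galHom_apply (σ : GQ) (T : (E⁄Qb).Point) : galHom E σ T = σ • T := rfl

theorem galHom_one : galHom E 1 = AddMonoidHom.id _ := by
  ext T
  rw [galHom_apply, one_smul]
  rfl

theorem galHom_mul (σ τ : GQ) : galHom E (σ * τ) = (galHom E σ).comp (galHom E τ) := by
  ext T
  rw [galHom_apply, mul_smul]
  rfl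

variable (hΔ : E.Δ ≠ 0) (p : ℕ) [hp : Fact p.Prime]

/-- The finite-level evaluation maps of the Tate module. -/
def tateEv (n : ℕ) (v : Fin 2 → ℤ_[p]) : (E⁄Qb).Point := ev (tateBasis E hΔ p) n v

/-- The Galois representation on the Tate module, as a monoid homomorphism. -/
def tateHom : GQ →* Module.End ℤ_[p] (Fin 2 → ℤ_[p]) where
  toFun σ := tateEnd (tateBasis E hΔ p) (galHom E σ)
  map_one' := by rw [galHom_one, tateEnd_id]
  map_mul' σ τ := by rw [galHom_mul, tateEnd_comp]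

theorem tateHom_apply (σ : GQ) :
    tateHom E hΔ p σ = tateEnd (tateBasis E hΔ p) (galHom E σ) := rfl

/-- **Galois equivariance** of the finite-level maps. -/
theorem tateEv_tateHom (n : ℕ) (σ : GQ) (v : Fin 2 → ℤ_[p]) :
    tateEv E hΔ p n (tateHom E hΔ p σ v) = σ • tateEv E hΔ p n v :=
  ev_tateEnd (tateBasis E hΔ p) (galHom E σ) v n

theorem tateEv_add (n : ℕ) (v w : Fin 2 → ℤ_[p]) :
    tateEv E hΔ p n (v + w) = tateEv E hΔ p n v + tateEv E hΔ p n w := ev_add _ n v w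

theorem tateEv_sub (n : ℕ) (v w : Fin 2 → ℤ_[p]) :
    tateEv E hΔ p n (v - w) = tateEv E hΔ p n v - tateEv E hΔ p n w := ev_sub _ n v w

theorem tateEv_zero (n : ℕ) : tateEv E hΔ p n 0 = 0 := ev_zero _ n

theorem tateEv_intCast_smul (n : ℕ) (a : ℤ) (v : Fin 2 → ℤ_[p]) :
    tateEv E hΔ p n ((a : ℤ_[p]) • v) = a • tateEv E hΔ p n v := by
  rw [tateEv, ev_smul, tsmul_intCast (pow_smul_ev _ n v)]
  rfl

theorem pow_smul_tateEv (n : ℕ) (v : Fin 2 → ℤ_[p]) : p ^ n • tateEv E hΔ p n v = 0 :=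
  pow_smul_ev _ n v

theorem smul_tateEv_succ (n : ℕ) (v : Fin 2 → ℤ_[p]) :
    p • tateEv E hΔ p (n + 1) v = tateEv E hΔ p n v := smul_ev_succ _ n v

/-- Surjectivity onto `E[p^n]`. -/
theorem exists_tateEv_eq {n : ℕ} {T : (E⁄Qb).Point} (hT : p ^ n • T = 0) :
    ∃ v : Fin 2 → ℤ_[p], tateEv E hΔ p n v = T := exists_ev_eq_of_torsion _ hT

/-- The kernel of the finite-level map is `p^n V`. -/
theorem tateEv_eq_zero_iff (n : ℕ) (v : Fin 2 → ℤ_[p]) :
    tateEv E hΔ p n v = 0 ↔ ∀ i, PadicInt.toZModPow n (v i) = 0 := ev_eq_zero_iff _ n v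

theorem tateEv_eq_zero_iff_exists (n : ℕ) (v : Fin 2 → ℤ_[p]) :
    tateEv E hΔ p n v = 0 ↔ ∃ w : Fin 2 → ℤ_[p], v = ((p : ℤ_[p]) ^ n) • w := by
  rw [tateEv_eq_zero_iff]
  constructor
  · intro h
    have h' : ∀ i, ∃ c : ℤ_[p], v i = (p : ℤ_[p]) ^ n * c := by
      intro i
      have := h i
      rw [← RingHom.mem_ker, PadicInt.ker_toZModPow, Ideal.mem_span_singleton] at this
      exact this
    choose c hc using h'
    exact ⟨c, funext fun i => by rw [Pi.smul_apply, smul_eq_mul, hc i]⟩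
  · rintro ⟨w, rfl⟩ i
    rw [← RingHom.mem_ker, PadicInt.ker_toZModPow, Ideal.mem_span_singleton, Pi.smul_apply,
      smul_eq_mul]
    exact dvd_mul_right _ _

/-- The finite-level maps separate vectors. -/
theorem eq_of_forall_tateEv_eq {v w : Fin 2 → ℤ_[p]}
    (h : ∀ n, tateEv E hΔ p n v = tateEv E hΔ p n w) : v = w := eq_of_forall_ev_eq _ h

/-- **Triviality transfer**: if `σ` fixes all points of `p`-power order, then `ρ(σ) = 1`. -/
theorem tateHom_eq_one {σ : GQ}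
    (h : ∀ (n : ℕ) (T : (E⁄Qb).Point), p ^ n • T = 0 → σ • T = T) : tateHom E hΔ p σ = 1 := by
  apply LinearMap.ext
  intro v
  apply eq_of_forall_tateEv_eq E hΔ p
  intro n
  rw [tateEv_tateHom, h n _ (pow_smul_tateEv E hΔ p n v)]
  rfl

/-- **Relation transfer**: if `σ² - a σ + ℓ` kills all points of `p`-power order, then
`ρ(σ)² - a ρ(σ) + ℓ = 0`. -/
theorem tateHom_quadratic {σ : GQ} (a ℓ : ℤ)
    (h : ∀ (n : ℕ) (T : (E⁄Qb).Point), p ^ n • T = 0 → σ • σ • T - a • σ • T + ℓ • T = 0) :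
    tateHom E hΔ p σ * tateHom E hΔ p σ - (a : ℤ_[p]) • tateHom E hΔ p σ +
      (ℓ : ℤ_[p]) • (1 : Module.End ℤ_[p] (Fin 2 → ℤ_[p])) = 0 := by
  apply LinearMap.ext
  intro v
  apply eq_of_forall_tateEv_eq E hΔ p
  intro n
  rw [LinearMap.add_apply, LinearMap.sub_apply, Module.End.mul_apply, LinearMap.smul_apply,
    LinearMap.smul_apply, Module.End.one_apply, LinearMap.zero_apply, tateEv_add, tateEv_sub,
    tateEv_tateHom, tateEv_tateHom, tateEv_intCast_smul, tateEv_intCast_smul, tateEv_tateHom,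
    tateEv_zero]
  exact h n _ (pow_smul_tateEv E hΔ p n v)

/-- A field automorphism fixing the coordinates of a point fixes the point. -/
theorem smul_eq_self_of_fixes {σ : GQ} {T : (E⁄Qb).Point}
    (hx : σ (Fermat.Agent.H74.ptX T) = Fermat.Agent.H74.ptX T)
    (hy : σ (Fermat.Agent.H74.ptY T) = Fermat.Agent.H74.ptY T) : σ • T = T := by
  rcases T with _ | ⟨x, y, h⟩
  · rfl
  · simp only [Fermat.Agent.H74.ptX_some, Fermat.Agent.H74.ptY_some] at hx hy
    change Point.map σ.toAlgHom (Point.some x y h) = Point.some x y h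
    simp only [Point.map_some]
    rw [Point.some.injEq]
    exact ⟨hx, hy⟩

/-- `σ` acts trivially on `E[p^n]` as soon as it fixes the two basis points. -/
theorem smul_eq_self_of_basis {σ : GQ} {n : ℕ}
    (hP : σ • (tateBasis E hΔ p).P n = (tateBasis E hΔ p).P n)
    (hQ : σ • (tateBasis E hΔ p).Q n = (tateBasis E hΔ p).Q n)
    {T : (E⁄Qb).Point} (hT : p ^ n • T = 0) : σ • T = T := by
  obtain ⟨a, b, rfl⟩ := (tateBasis E hΔ p).span n T hT
  change galHom E σ _ = _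
  rw [map_add, map_zsmul, map_zsmul, galHom_apply, galHom_apply, hP, hQ]

/-- The field generated by the coordinates of the two basis points of level `n`. -/
def tateField (n : ℕ) : IntermediateField ℚ Qb :=
  IntermediateField.adjoin ℚ
    ({Fermat.Agent.H74.ptX ((tateBasis E hΔ p).P n), Fermat.Agent.H74.ptY ((tateBasis E hΔ p).P n),
      Fermat.Agent.H74.ptX ((tateBasis E hΔ p).Q n),
      Fermat.Agent.H74.ptY ((tateBasis E hΔ p).Q n)} : Set Qb)

theorem tateField_finiteDimensional (n : ℕ) : FiniteDimensional ℚ (tateField E hΔ p n) := by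
  have : Algebra.IsAlgebraic ℚ (AlgebraicClosure ℚ) := AlgebraicClosure.isAlgebraic ℚ
  apply IntermediateField.finiteDimensional_adjoin
  intro x _
  exact (Algebra.IsAlgebraic.isAlgebraic x).isIntegral

/-- An automorphism fixing `tateField n` acts trivially on `E[p^n]`. -/
theorem smul_eq_self_of_fixes_tateField {n : ℕ} {σ : GQ}
    (hσ : ∀ x ∈ tateField E hΔ p n, σ x = x) {T : (E⁄Qb).Point} (hT : p ^ n • T = 0) :
    σ • T = T := by
  apply smul_eq_self_of_basis E hΔ p _ _ hT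
  · apply smul_eq_self_of_fixes
    · exact hσ _ (IntermediateField.subset_adjoin ℚ _ (by simp))
    · exact hσ _ (IntermediateField.subset_adjoin ℚ _ (by simp))
  · apply smul_eq_self_of_fixes
    · exact hσ _ (IntermediateField.subset_adjoin ℚ _ (by simp))
    · exact hσ _ (IntermediateField.subset_adjoin ℚ _ (by simp))

/-- If `σ` acts trivially on `E[p^n]` then `ρ(σ) ≡ 1` modulo `p^n`. -/
theorem tateHom_sub_mem_of_fixes {n : ℕ} {σ : GQ}
    (h : ∀ T : (E⁄Qb).Point, p ^ n • T = 0 → σ • T = T) (v : Fin 2 → ℤ_[p]) :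
    tateHom E hΔ p σ v - v ∈
      (IsLocalRing.maximalIdeal ℤ_[p] ^ n) • (⊤ : Submodule ℤ_[p] (Fin 2 → ℤ_[p])) := by
  have h0 : tateEv E hΔ p n (tateHom E hΔ p σ v - v) = 0 := by
    rw [tateEv_sub, tateEv_tateHom, h _ (pow_smul_tateEv E hΔ p n v), sub_self]
  obtain ⟨w, hw⟩ := (tateEv_eq_zero_iff_exists E hΔ p n _).mp h0
  rw [hw]
  apply Submodule.smul_mem_smul _ Submodule.mem_top
  apply Ideal.pow_mem_pow
  rw [PadicInt.maximalIdeal_eq_span_p]
  exact Ideal.mem_span_singleton_self _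

/-- Conversely, `ρ(σ) v ≡ v` modulo `p^n` for all `v` means that `σ` is trivial on `E[p^n]`. -/
theorem smul_eq_self_of_tateHom {n : ℕ} {σ : GQ}
    (h : ∀ v : Fin 2 → ℤ_[p], ∃ w : Fin 2 → ℤ_[p], tateHom E hΔ p σ v - v = ((p : ℤ_[p]) ^ n) • w)
    {T : (E⁄Qb).Point} (hT : p ^ n • T = 0) : σ • T = T := by
  obtain ⟨v, rfl⟩ := exists_tateEv_eq E hΔ p hT
  have h0 := (tateEv_eq_zero_iff_exists E hΔ p n _).mpr (h v)
  rw [tateEv_sub, tateEv_tateHom, sub_eq_zero] at h0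
  exact h0

/-- **The `p`-adic Tate module of `E`** as a `GaloisRepAdic ℤ_[p]`. -/
def tateRep : GaloisRepAdic ℤ_[p] where
  V := Fin 2 → ℤ_[p]
  finrank_eq := Module.finrank_fin_fun ℤ_[p]
  ρ := tateHom E hΔ p
  isAdicContinuous := fun n =>
    ⟨tateField E hΔ p n, tateField_finiteDimensional E hΔ p n, fun _ hσ v =>
      tateHom_sub_mem_of_fixes E hΔ p
        (fun _ hT => smul_eq_self_of_fixes_tateField E hΔ p hσ hT) v⟩

theorem tateRep_ρ : (tateRep E hΔ p).ρ = tateHom E hΔ p := rfl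

/-- **Unramifiedness transfer.** -/
theorem tateRep_isUnramifiedAt {q : ℕ}
    (h : ∀ P : ValuationSubring Qb, P.LiesOverPrime q → ∀ σ ∈ P.inertiaSubgroupIn ℚ,
      ∀ (n : ℕ) (T : (E⁄Qb).Point), p ^ n • T = 0 → σ • T = T) :
    (tateRep E hΔ p).IsUnramifiedAt q := by
  intro P hP σ hσ
  exact tateHom_eq_one E hΔ p (h P hP σ hσ)

end Fermat.Agent.H74.Tate

end
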